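import Fermat.Agent.Lib.Kummer.KummerLemma

/-!
# A small congruence calculus for unit certificates in `Z[zeta_p]`

Generic lemmas used by the generated certificate files `UnitCert/Units*.lean`: congruences
modulo a power of `lam = zeta - 1`, and the basic cyclotomic units as elements of the unit group.
-/

set_option autoImplicit false
set_option linter.unusedSectionVars false

namespace Fermat.Agent.Lib.Kummer.UnitCert

open NumberField

section calculus

variable {R : Type*} [CommRing R]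

lemma cong_mul {π x y A B C : R} {D : ℕ} (hx : π ^ D ∣ x - A) (hy : π ^ D ∣ y - B)
    (h : π ^ D ∣ A * B - C) : π ^ D ∣ x * y - C := by
  have : x * y - C = (x - A) * y + A * (y - B) + (A * B - C) := by ring
  rw [this]
  exact dvd_add (dvd_add (hx.mul_right _) (hy.mul_left _)) h

lemma cong_pow {π x A C : R} {D : ℕ} (e : ℕ) (hx : π ^ D ∣ x - A) (h : π ^ D ∣ A ^ e - C) :
    π ^ D ∣ x ^ e - C := by
  have h1 : x - A ∣ x ^ e - A ^ e := sub_dvd_pow_sub_pow x A e
  have : x ^ e - C = (x ^ e - A ^ e) + (A ^ e - C) := by ring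
  rw [this]
  exact dvd_add (hx.trans h1) h

lemma cong_of_eq {π P A C : R} {D : ℕ} (hp : π ^ D ∣ P) (Q T : R)
    (h : A = C + π ^ D * Q + P * T) : π ^ D ∣ A - C := by
  have : A - C = π ^ D * Q + P * T := by rw [h]; ring
  rw [this]
  exact dvd_add (dvd_mul_right _ _) (hp.mul_right _)

lemma cong_refl {π x A : R} {D : ℕ} (h : x = A) : π ^ D ∣ x - A := by
  rw [h, sub_self]
  exact dvd_zero _

end calculus

section units

variable {p : ℕ} [hp : Fact p.Prime] {K : Type*} [Field K] [NumberField K]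
  [IsCyclotomicExtension {p} ℚ K] {ζ : K} (hζ : IsPrimitiveRoot ζ p)

/-- `ζ` as a unit of the ring of integers. -/
noncomputable def zetaUnit : (𝓞 K)ˣ :=
  (hζ.toInteger_isPrimitiveRoot.isUnit hp.out.ne_zero).unit

/-- The cyclotomic unit `1 + ζ + ... + ζ ^ (a - 1)`, for `a` prime to `p`. -/
noncomputable def xiUnit (a : ℕ) (ha : a.Coprime p) : (𝓞 K)ˣ :=
  (hζ.toInteger_isPrimitiveRoot.geom_sum_isUnit hp.out.two_le ha).unit

lemma zetaUnit_val : (zetaUnit hζ : 𝓞 K) = 1 + (hζ.toInteger - 1) := by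
  simp [zetaUnit]

lemma xiUnit_val (a : ℕ) (ha : a.Coprime p) :
    (xiUnit hζ a ha : 𝓞 K) = ∑ i ∈ Finset.range a, (1 + (hζ.toInteger - 1)) ^ i := by
  simp [xiUnit]

lemma lam_pow_dvd_natCast {k : ℕ} (hk : k ≤ p - 1) :
    (hζ.toInteger - 1) ^ k ∣ ((p : ℕ) : 𝓞 K) := lam_pow_dvd_p hζ hk

end units

end Fermat.Agent.Lib.Kummer.UnitCert
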