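import Fermat.Agent.Lib.Kummer.UnitCert.Basic
import Mathlib.Tactic.NormNum.Prime

/-!
# Kummer's lemma for `p = 11` from an explicit triangular system of cyclotomic units

This file is generated (see the certificate calculus in `UnitCert/Basic.lean`): every step is a
polynomial identity in `lam = zeta - 1` checked by `ring`.
-/

set_option autoImplicit false
set_option linter.unusedSectionVars false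
set_option linter.unusedVariables false
set_option linter.unusedSimpArgs false
set_option linter.style.longLine false

namespace Fermat.Agent.Lib.Kummer.UnitCert.P11

open NumberField

theorem fact_prime : Fact (Nat.Prime 11) := ⟨by norm_num⟩

attribute [local instance] fact_prime

variable {K : Type*} [Field K] [NumberField K] [IsCyclotomicExtension {11} ℚ K] {ζ : K}
  (hζ : IsPrimitiveRoot ζ 11)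

theorem cop2 : Nat.Coprime 2 11 := by norm_num

lemma xi2_val : (xiUnit hζ 2 cop2 : 𝓞 K) = 2 + 1 * (hζ.toInteger - 1) := by
  rw [xiUnit_val]
  simp only [Finset.sum_range_succ, Finset.sum_range_zero]
  ring

theorem cop3 : Nat.Coprime 3 11 := by norm_num

lemma xi3_val : (xiUnit hζ 3 cop3 : 𝓞 K) = 3 + 3 * (hζ.toInteger - 1) + 1 * (hζ.toInteger - 1) ^ 2 := by
  rw [xiUnit_val]
  simp only [Finset.sum_range_succ, Finset.sum_range_zero]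
  ring

theorem cop4 : Nat.Coprime 4 11 := by norm_num

lemma xi4_val : (xiUnit hζ 4 cop4 : 𝓞 K) = 4 + 6 * (hζ.toInteger - 1) + 4 * (hζ.toInteger - 1) ^ 2 + 1 * (hζ.toInteger - 1) ^ 3 := by
  rw [xiUnit_val]
  simp only [Finset.sum_range_succ, Finset.sum_range_zero]
  ring

theorem cop5 : Nat.Coprime 5 11 := by norm_num

lemma xi5_val : (xiUnit hζ 5 cop5 : 𝓞 K) = 5 + 10 * (hζ.toInteger - 1) + 10 * (hζ.toInteger - 1) ^ 2 + 5 * (hζ.toInteger - 1) ^ 3 + 1 * (hζ.toInteger - 1) ^ 4 := by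
  rw [xiUnit_val]
  simp only [Finset.sum_range_succ, Finset.sum_range_zero]
  ring

/-- The unit `h_0` of level `1`. -/
noncomputable def h0 : (𝓞 K)ˣ := zetaUnit hζ ^ 1

lemma h0_cong : (hζ.toInteger - 1) ^ 2 ∣
    (h0 hζ : 𝓞 K) - ((1 : ℤ) : 𝓞 K) * (1 + ((1 : ℤ) : 𝓞 K) * (hζ.toInteger - 1) ^ 1) := by
  have hpD : (hζ.toInteger - 1) ^ 2 ∣ (11 : 𝓞 K) := by
    have := lam_pow_dvd_natCast hζ (k := 2) (by norm_num)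
    simpa using this
  have hz : (hζ.toInteger - 1) ^ 2 ∣ (zetaUnit hζ : 𝓞 K) - (1 + (hζ.toInteger - 1)) :=
    cong_refl (zetaUnit_val hζ)
  simp only [h0, Units.val_mul, Units.val_pow_eq_pow_val]
  push_cast
  generalize hζ.toInteger - 1 = π at *
  generalize ((zetaUnit hζ : (𝓞 K)ˣ) : 𝓞 K) = z at *
  have p0 : π ^ 2 ∣ z ^ 1 - (1 * (1 + 1 * π ^ 1)) :=
    cong_pow 1 hz (cong_of_eq hpD (0) (0) (by ring))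
  exact p0

/-- The unit `h_1` of level `2`. -/
noncomputable def h1 : (𝓞 K)ˣ := zetaUnit hζ ^ 5 * xiUnit hζ 2 cop2 ^ 1

lemma h1_cong : (hζ.toInteger - 1) ^ 3 ∣
    (h1 hζ : 𝓞 K) - ((2 : ℤ) : 𝓞 K) * (1 + ((7 : ℤ) : 𝓞 K) * (hζ.toInteger - 1) ^ 2) := by
  have hpD : (hζ.toInteger - 1) ^ 3 ∣ (11 : 𝓞 K) := by
    have := lam_pow_dvd_natCast hζ (k := 3) (by norm_num)
    simpa using this
  have hz : (hζ.toInteger - 1) ^ 3 ∣ (zetaUnit hζ : 𝓞 K) - (1 + (hζ.toInteger - 1)) :=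
    cong_refl (zetaUnit_val hζ)
  have hx2 : (hζ.toInteger - 1) ^ 3 ∣ (xiUnit hζ 2 cop2 : 𝓞 K) - (2 + 1 * (hζ.toInteger - 1)) :=
    cong_refl (xi2_val hζ)
  simp only [h1, Units.val_mul, Units.val_pow_eq_pow_val]
  push_cast
  generalize hζ.toInteger - 1 = π at *
  generalize ((zetaUnit hζ : (𝓞 K)ˣ) : 𝓞 K) = z at *
  generalize ((xiUnit hζ 2 cop2 : (𝓞 K)ˣ) : 𝓞 K) = x2 at *
  have p0 : π ^ 3 ∣ z ^ 5 - (1 + 5 * π + 10 * π ^ 2) :=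
    cong_pow 5 hz (cong_of_eq hpD (10 + 5 * π + 1 * π ^ 2) (0) (by ring))
  have p1 : π ^ 3 ∣ x2 ^ 1 - (2 + 1 * π) :=
    cong_pow 1 hx2 (cong_of_eq hpD (0) (0) (by ring))
  have m1 : π ^ 3 ∣ z ^ 5 * x2 ^ 1 - (2 * (1 + 7 * π ^ 2)) :=
    cong_mul p0 p1 (cong_of_eq hpD (10) (1 * π + 1 * π ^ 2) (by ring))
  exact m1

/-- The unit `h_2` of level `4`. -/
noncomputable def h2 : (𝓞 K)ˣ := zetaUnit hζ ^ 4 * xiUnit hζ 2 cop2 ^ 1 * xiUnit hζ 3 cop3 ^ 1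

lemma h2_cong : (hζ.toInteger - 1) ^ 5 ∣
    (h2 hζ : 𝓞 K) - ((6 : ℤ) : 𝓞 K) * (1 + ((9 : ℤ) : 𝓞 K) * (hζ.toInteger - 1) ^ 4) := by
  have hpD : (hζ.toInteger - 1) ^ 5 ∣ (11 : 𝓞 K) := by
    have := lam_pow_dvd_natCast hζ (k := 5) (by norm_num)
    simpa using this
  have hz : (hζ.toInteger - 1) ^ 5 ∣ (zetaUnit hζ : 𝓞 K) - (1 + (hζ.toInteger - 1)) :=
    cong_refl (zetaUnit_val hζ)
  have hx2 : (hζ.toInteger - 1) ^ 5 ∣ (xiUnit hζ 2 cop2 : 𝓞 K) - (2 + 1 * (hζ.toInteger - 1)) :=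
    cong_refl (xi2_val hζ)
  have hx3 : (hζ.toInteger - 1) ^ 5 ∣ (xiUnit hζ 3 cop3 : 𝓞 K) - (3 + 3 * (hζ.toInteger - 1) + 1 * (hζ.toInteger - 1) ^ 2) :=
    cong_refl (xi3_val hζ)
  simp only [h2, Units.val_mul, Units.val_pow_eq_pow_val]
  push_cast
  generalize hζ.toInteger - 1 = π at *
  generalize ((zetaUnit hζ : (𝓞 K)ˣ) : 𝓞 K) = z at *
  generalize ((xiUnit hζ 2 cop2 : (𝓞 K)ˣ) : 𝓞 K) = x2 at *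
  generalize ((xiUnit hζ 3 cop3 : (𝓞 K)ˣ) : 𝓞 K) = x3 at *
  have p0 : π ^ 5 ∣ z ^ 4 - (1 + 4 * π + 6 * π ^ 2 + 4 * π ^ 3 + 1 * π ^ 4) :=
    cong_pow 4 hz (cong_of_eq hpD (0) (0) (by ring))
  have p1 : π ^ 5 ∣ x2 ^ 1 - (2 + 1 * π) :=
    cong_pow 1 hx2 (cong_of_eq hpD (0) (0) (by ring))
  have m1 : π ^ 5 ∣ z ^ 4 * x2 ^ 1 - (2 + 9 * π + 5 * π ^ 2 + 3 * π ^ 3 + 6 * π ^ 4) :=
    cong_mul p0 p1 (cong_of_eq hpD (1) (1 * π ^ 2 + 1 * π ^ 3) (by ring))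
  have p2 : π ^ 5 ∣ x3 ^ 1 - (3 + 3 * π + 1 * π ^ 2) :=
    cong_pow 1 hx3 (cong_of_eq hpD (0) (0) (by ring))
  have m2 : π ^ 5 ∣ z ^ 4 * x2 ^ 1 * x3 ^ 1 - (6 * (1 + 9 * π ^ 4)) :=
    cong_mul m1 p2 (cong_of_eq hpD (21 + 6 * π) (3 * π + 4 * π ^ 2 + 3 * π ^ 3 + (-2) * π ^ 4) (by ring))
  exact m2

/-- The unit `h_3` of level `6`. -/
noncomputable def h3 : (𝓞 K)ˣ := zetaUnit hζ ^ 5 * xiUnit hζ 2 cop2 ^ 7 * xiUnit hζ 3 cop3 ^ 1 * xiUnit hζ 4 cop4 ^ 1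

lemma h3_cong : (hζ.toInteger - 1) ^ 7 ∣
    (h3 hζ : 𝓞 K) - ((7 : ℤ) : 𝓞 K) * (1 + ((1 : ℤ) : 𝓞 K) * (hζ.toInteger - 1) ^ 6) := by
  have hpD : (hζ.toInteger - 1) ^ 7 ∣ (11 : 𝓞 K) := by
    have := lam_pow_dvd_natCast hζ (k := 7) (by norm_num)
    simpa using this
  have hz : (hζ.toInteger - 1) ^ 7 ∣ (zetaUnit hζ : 𝓞 K) - (1 + (hζ.toInteger - 1)) :=
    cong_refl (zetaUnit_val hζ)
  have hx2 : (hζ.toInteger - 1) ^ 7 ∣ (xiUnit hζ 2 cop2 : 𝓞 K) - (2 + 1 * (hζ.toInteger - 1)) :=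
    cong_refl (xi2_val hζ)
  have hx3 : (hζ.toInteger - 1) ^ 7 ∣ (xiUnit hζ 3 cop3 : 𝓞 K) - (3 + 3 * (hζ.toInteger - 1) + 1 * (hζ.toInteger - 1) ^ 2) :=
    cong_refl (xi3_val hζ)
  have hx4 : (hζ.toInteger - 1) ^ 7 ∣ (xiUnit hζ 4 cop4 : 𝓞 K) - (4 + 6 * (hζ.toInteger - 1) + 4 * (hζ.toInteger - 1) ^ 2 + 1 * (hζ.toInteger - 1) ^ 3) :=
    cong_refl (xi4_val hζ)
  simp only [h3, Units.val_mul, Units.val_pow_eq_pow_val]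
  push_cast
  generalize hζ.toInteger - 1 = π at *
  generalize ((zetaUnit hζ : (𝓞 K)ˣ) : 𝓞 K) = z at *
  generalize ((xiUnit hζ 2 cop2 : (𝓞 K)ˣ) : 𝓞 K) = x2 at *
  generalize ((xiUnit hζ 3 cop3 : (𝓞 K)ˣ) : 𝓞 K) = x3 at *
  generalize ((xiUnit hζ 4 cop4 : (𝓞 K)ˣ) : 𝓞 K) = x4 at *
  have p0 : π ^ 7 ∣ z ^ 5 - (1 + 5 * π + 10 * π ^ 2 + 10 * π ^ 3 + 5 * π ^ 4 + 1 * π ^ 5) :=
    cong_pow 5 hz (cong_of_eq hpD (0) (0) (by ring))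
  have p1 : π ^ 7 ∣ x2 ^ 7 - (7 + 8 * π + 1 * π ^ 2 + 10 * π ^ 3 + 5 * π ^ 4 + 7 * π ^ 5 + 3 * π ^ 6) :=
    cong_pow 7 hx2 (cong_of_eq hpD (1) (11 + 40 * π + 61 * π ^ 2 + 50 * π ^ 3 + 25 * π ^ 4 + 7 * π ^ 5 + 1 * π ^ 6) (by ring))
  have m1 : π ^ 7 ∣ z ^ 5 * x2 ^ 7 - (7 + 10 * π + 1 * π ^ 2 + 4 * π ^ 4 + 2 * π ^ 5 + 3 * π ^ 6) :=
    cong_mul p0 p1 (cong_of_eq hpD (186 + 135 * π + 70 * π ^ 2 + 22 * π ^ 3 + 3 * π ^ 4) (3 * π + 10 * π ^ 2 + 15 * π ^ 3 + 16 * π ^ 4 + 17 * π ^ 5 + 18 * π ^ 6) (by ring))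
  have p2 : π ^ 7 ∣ x3 ^ 1 - (3 + 3 * π + 1 * π ^ 2) :=
    cong_pow 1 hx3 (cong_of_eq hpD (0) (0) (by ring))
  have m2 : π ^ 7 ∣ z ^ 5 * x2 ^ 7 * x3 ^ 1 - (10 + 7 * π + 7 * π ^ 2 + 2 * π ^ 3 + 2 * π ^ 4 + 7 * π ^ 5 + 8 * π ^ 6) :=
    cong_mul m1 p2 (cong_of_eq hpD (11 + 3 * π) (1 + 4 * π + 3 * π ^ 2 + 1 * π ^ 3 + 1 * π ^ 4 + 1 * π ^ 5 + 1 * π ^ 6) (by ring))
  have p3 : π ^ 7 ∣ x4 ^ 1 - (4 + 6 * π + 4 * π ^ 2 + 1 * π ^ 3) :=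
    cong_pow 1 hx4 (cong_of_eq hpD (0) (0) (by ring))
  have m3 : π ^ 7 ∣ z ^ 5 * x2 ^ 7 * x3 ^ 1 * x4 ^ 1 - (7 * (1 + 1 * π ^ 6)) :=
    cong_mul m2 p3 (cong_of_eq hpD (78 + 39 * π + 8 * π ^ 2) (3 + 8 * π + 10 * π ^ 2 + 8 * π ^ 3 + 5 * π ^ 4 + 5 * π ^ 5 + 7 * π ^ 6) (by ring))
  exact m3

/-- The unit `h_4` of level `8`. -/
noncomputable def h4 : (𝓞 K)ˣ := zetaUnit hζ ^ 5 * xiUnit hζ 2 cop2 ^ 3 * xiUnit hζ 3 cop3 ^ 4 * xiUnit hζ 4 cop4 ^ 1 * xiUnit hζ 5 cop5 ^ 5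

lemma h4_cong : (hζ.toInteger - 1) ^ 9 ∣
    (h4 hζ : 𝓞 K) - ((7 : ℤ) : 𝓞 K) * (1 + ((10 : ℤ) : 𝓞 K) * (hζ.toInteger - 1) ^ 8) := by
  have hpD : (hζ.toInteger - 1) ^ 9 ∣ (11 : 𝓞 K) := by
    have := lam_pow_dvd_natCast hζ (k := 9) (by norm_num)
    simpa using this
  have hz : (hζ.toInteger - 1) ^ 9 ∣ (zetaUnit hζ : 𝓞 K) - (1 + (hζ.toInteger - 1)) :=
    cong_refl (zetaUnit_val hζ)
  have hx2 : (hζ.toInteger - 1) ^ 9 ∣ (xiUnit hζ 2 cop2 : 𝓞 K) - (2 + 1 * (hζ.toInteger - 1)) :=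
    cong_refl (xi2_val hζ)
  have hx3 : (hζ.toInteger - 1) ^ 9 ∣ (xiUnit hζ 3 cop3 : 𝓞 K) - (3 + 3 * (hζ.toInteger - 1) + 1 * (hζ.toInteger - 1) ^ 2) :=
    cong_refl (xi3_val hζ)
  have hx4 : (hζ.toInteger - 1) ^ 9 ∣ (xiUnit hζ 4 cop4 : 𝓞 K) - (4 + 6 * (hζ.toInteger - 1) + 4 * (hζ.toInteger - 1) ^ 2 + 1 * (hζ.toInteger - 1) ^ 3) :=
    cong_refl (xi4_val hζ)
  have hx5 : (hζ.toInteger - 1) ^ 9 ∣ (xiUnit hζ 5 cop5 : 𝓞 K) - (5 + 10 * (hζ.toInteger - 1) + 10 * (hζ.toInteger - 1) ^ 2 + 5 * (hζ.toInteger - 1) ^ 3 + 1 * (hζ.toInteger - 1) ^ 4) :=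
    cong_refl (xi5_val hζ)
  simp only [h4, Units.val_mul, Units.val_pow_eq_pow_val]
  push_cast
  generalize hζ.toInteger - 1 = π at *
  generalize ((zetaUnit hζ : (𝓞 K)ˣ) : 𝓞 K) = z at *
  generalize ((xiUnit hζ 2 cop2 : (𝓞 K)ˣ) : 𝓞 K) = x2 at *
  generalize ((xiUnit hζ 3 cop3 : (𝓞 K)ˣ) : 𝓞 K) = x3 at *
  generalize ((xiUnit hζ 4 cop4 : (𝓞 K)ˣ) : 𝓞 K) = x4 at *
  generalize ((xiUnit hζ 5 cop5 : (𝓞 K)ˣ) : 𝓞 K) = x5 at *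
  have p0 : π ^ 9 ∣ z ^ 5 - (1 + 5 * π + 10 * π ^ 2 + 10 * π ^ 3 + 5 * π ^ 4 + 1 * π ^ 5) :=
    cong_pow 5 hz (cong_of_eq hpD (0) (0) (by ring))
  have p1 : π ^ 9 ∣ x2 ^ 3 - (8 + 1 * π + 6 * π ^ 2 + 1 * π ^ 3) :=
    cong_pow 3 hx2 (cong_of_eq hpD (0) (1 * π) (by ring))
  have m1 : π ^ 9 ∣ z ^ 5 * x2 ^ 3 - (8 + 8 * π + 3 * π ^ 2 + 5 * π ^ 4 + 6 * π ^ 5 + 8 * π ^ 6 + 1 * π ^ 8) :=
    cong_mul p0 p1 (cong_of_eq hpD (0) (3 * π + 8 * π ^ 2 + 11 * π ^ 3 + 10 * π ^ 4 + 7 * π ^ 5 + 3 * π ^ 6 + 1 * π ^ 7) (by ring))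
  have p2 : π ^ 9 ∣ x3 ^ 4 - (4 + 5 * π + 10 * π ^ 3 + 8 * π ^ 4 + 7 * π ^ 5 + 1 * π ^ 7 + 1 * π ^ 8) :=
    cong_pow 4 hx3 (cong_of_eq hpD (0) (7 + 29 * π + 54 * π ^ 2 + 58 * π ^ 3 + 41 * π ^ 4 + 19 * π ^ 5 + 6 * π ^ 6 + 1 * π ^ 7) (by ring))
  have m2 : π ^ 9 ∣ z ^ 5 * x2 ^ 3 * x3 ^ 4 - (10 + 6 * π + 8 * π ^ 2 + 7 * π ^ 3 + 10 * π ^ 4 + 1 * π ^ 5 + 10 * π ^ 6 + 9 * π ^ 7 + 10 * π ^ 8) :=
    cong_mul m1 p2 (cong_of_eq hpD (179 + 109 * π + 71 * π ^ 2 + 19 * π ^ 3 + 21 * π ^ 4 + 8 * π ^ 5 + 1 * π ^ 6 + 1 * π ^ 7) (2 + 6 * π + 4 * π ^ 2 + 8 * π ^ 3 + 14 * π ^ 4 + 18 * π ^ 5 + 12 * π ^ 6 + 10 * π ^ 7 + 10 * π ^ 8) (by ring))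
  have p3 : π ^ 9 ∣ x4 ^ 1 - (4 + 6 * π + 4 * π ^ 2 + 1 * π ^ 3) :=
    cong_pow 1 hx4 (cong_of_eq hpD (0) (0) (by ring))
  have m3 : π ^ 9 ∣ z ^ 5 * x2 ^ 3 * x3 ^ 4 * x4 ^ 1 - (7 + 7 * π + 9 * π ^ 2 + 10 * π ^ 4 + 1 * π ^ 5 + 5 * π ^ 6 + 3 * π ^ 8) :=
    cong_mul m2 p3 (cong_of_eq hpD (106 + 49 * π + 10 * π ^ 2) (3 + 7 * π + 9 * π ^ 2 + 10 * π ^ 3 + 10 * π ^ 4 + 9 * π ^ 5 + 8 * π ^ 6 + 10 * π ^ 7 + 12 * π ^ 8) (by ring))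
  have p4 : π ^ 9 ∣ x5 ^ 5 - (1 + 10 * π + 6 * π ^ 2 + 5 * π ^ 4 + 1 * π ^ 5 + 7 * π ^ 6 + 1 * π ^ 7 + 7 * π ^ 8) :=
    cong_pow 5 hx5 (cong_of_eq hpD (4263750 + 3191250 * π + 2018750 * π ^ 2 + 1075875 * π ^ 3 + 479750 * π ^ 4 + 177000 * π ^ 5 + 53125 * π ^ 6 + 12650 * π ^ 7 + 2300 * π ^ 8 + 300 * π ^ 9 + 25 * π ^ 10 + 1 * π ^ 11) (284 + 2840 * π + 14204 * π ^ 2 + 46875 * π ^ 3 + 113920 * π ^ 4 + 215909 * π ^ 5 + 330113 * π ^ 6 + 415909 * π ^ 7 + 437613 * π ^ 8) (by ring))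
  have m4 : π ^ 9 ∣ z ^ 5 * x2 ^ 3 * x3 ^ 4 * x4 ^ 1 * x5 ^ 5 - (7 * (1 + 10 * π ^ 8)) :=
    cong_mul m3 p4 (cong_of_eq hpD (103 + 177 * π + 22 * π ^ 2 + 121 * π ^ 3 + 15 * π ^ 4 + 56 * π ^ 5 + 3 * π ^ 6 + 21 * π ^ 7) (7 * π + 11 * π ^ 2 + 12 * π ^ 3 + 9 * π ^ 4 + 13 * π ^ 5 + 16 * π ^ 6 + 11 * π ^ 7 + 12 * π ^ 8) (by ring))
  exact m4

/-- **Kummer's lemma for `p = 11`.** -/
theorem kummerLemma (K : Type*) [Field K] [NumberField K] [IsCyclotomicExtension {11} ℚ K] :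
    KummerLemmaHolds 11 K := by
  have hζ := IsCyclotomicExtension.zeta_spec 11 ℚ K
  refine kummerLemma_of_triangular' (p := 11) (by norm_num) hζ (r := 5) (by norm_num)
    ![h0 hζ, h1 hζ, h2 hζ, h3 hζ, h4 hζ] ![1, 2, 6, 7, 7] ![1, 7, 9, 1, 10] ![1, 2, 4, 6, 8] ?_ ?_ ?_ ?_ ?_
  · intro i j hij
    fin_cases i <;> fin_cases j <;> simp at hij ⊢
  · intro i
    fin_cases i <;> simp
  · intro i
    fin_cases i <;> simp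
  · intro i
    fin_cases i <;> norm_num
  · intro i
    fin_cases i
    · exact h0_cong hζ
    · exact h1_cong hζ
    · exact h2_cong hζ
    · exact h3_cong hζ
    · exact h4_cong hζ

end Fermat.Agent.Lib.Kummer.UnitCert.P11
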