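import Fermat.Agent.Lib.Kummer.UnitCert.Basic
import Mathlib.Tactic.NormNum.Prime

/-!
# Kummer's lemma for `p = 13` from an explicit triangular system of cyclotomic units

This file is generated (see the certificate calculus in `UnitCert/Basic.lean`): every step is a
polynomial identity in `lam = zeta - 1` checked by `ring`.
-/

set_option autoImplicit false
set_option linter.unusedSectionVars false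
set_option linter.unusedVariables false
set_option linter.unusedSimpArgs false
set_option linter.style.longLine false

namespace Fermat.Agent.Lib.Kummer.UnitCert.P13

open NumberField

theorem fact_prime : Fact (Nat.Prime 13) := ⟨by norm_num⟩

attribute [local instance] fact_prime

variable {K : Type*} [Field K] [NumberField K] [IsCyclotomicExtension {13} ℚ K] {ζ : K}
  (hζ : IsPrimitiveRoot ζ 13)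

theorem cop2 : Nat.Coprime 2 13 := by norm_num

lemma xi2_val : (xiUnit hζ 2 cop2 : 𝓞 K) = 2 + 1 * (hζ.toInteger - 1) := by
  rw [xiUnit_val]
  simp only [Finset.sum_range_succ, Finset.sum_range_zero]
  ring

theorem cop3 : Nat.Coprime 3 13 := by norm_num

lemma xi3_val : (xiUnit hζ 3 cop3 : 𝓞 K) = 3 + 3 * (hζ.toInteger - 1) + 1 * (hζ.toInteger - 1) ^ 2 := by
  rw [xiUnit_val]
  simp only [Finset.sum_range_succ, Finset.sum_range_zero]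
  ring

theorem cop4 : Nat.Coprime 4 13 := by norm_num

lemma xi4_val : (xiUnit hζ 4 cop4 : 𝓞 K) = 4 + 6 * (hζ.toInteger - 1) + 4 * (hζ.toInteger - 1) ^ 2 + 1 * (hζ.toInteger - 1) ^ 3 := by
  rw [xiUnit_val]
  simp only [Finset.sum_range_succ, Finset.sum_range_zero]
  ring

theorem cop5 : Nat.Coprime 5 13 := by norm_num

lemma xi5_val : (xiUnit hζ 5 cop5 : 𝓞 K) = 5 + 10 * (hζ.toInteger - 1) + 10 * (hζ.toInteger - 1) ^ 2 + 5 * (hζ.toInteger - 1) ^ 3 + 1 * (hζ.toInteger - 1) ^ 4 := by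
  rw [xiUnit_val]
  simp only [Finset.sum_range_succ, Finset.sum_range_zero]
  ring

theorem cop6 : Nat.Coprime 6 13 := by norm_num

lemma xi6_val : (xiUnit hζ 6 cop6 : 𝓞 K) = 6 + 15 * (hζ.toInteger - 1) + 20 * (hζ.toInteger - 1) ^ 2 + 15 * (hζ.toInteger - 1) ^ 3 + 6 * (hζ.toInteger - 1) ^ 4 + 1 * (hζ.toInteger - 1) ^ 5 := by
  rw [xiUnit_val]
  simp only [Finset.sum_range_succ, Finset.sum_range_zero]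
  ring

/-- The unit `h_0` of level `1`. -/
noncomputable def h0 : (𝓞 K)ˣ := zetaUnit hζ ^ 1

lemma h0_cong : (hζ.toInteger - 1) ^ 2 ∣
    (h0 hζ : 𝓞 K) - ((1 : ℤ) : 𝓞 K) * (1 + ((1 : ℤ) : 𝓞 K) * (hζ.toInteger - 1) ^ 1) := by
  have hpD : (hζ.toInteger - 1) ^ 2 ∣ (13 : 𝓞 K) := by
    have := lam_pow_dvd_natCast hζ (k := 2) (by norm_num)
    simpa using this
  have hz : (hζ.toInteger - 1) ^ 2 ∣ (zetaUnit hζ : 𝓞 K) - (1 + (hζ.toInteger - 1)) :=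
    cong_refl (zetaUnit_val hζ)
  simp only [h0, Units.val_mul, Units.val_pow_eq_pow_val]
  push_cast
  generalize hζ.toInteger - 1 = π at *
  generalize ((zetaUnit hζ : (𝓞 K)ˣ) : 𝓞 K) = z at *
  have p0 : π ^ 2 ∣ z ^ 1 - (1 * (1 + 1 * π ^ 1)) :=
    cong_pow 1 hz (cong_of_eq hpD (0) (0) (by ring))
  exact p0

/-- The unit `h_1` of level `2`. -/
noncomputable def h1 : (𝓞 K)ˣ := zetaUnit hζ ^ 6 * xiUnit hζ 2 cop2 ^ 1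

lemma h1_cong : (hζ.toInteger - 1) ^ 3 ∣
    (h1 hζ : 𝓞 K) - ((2 : ℤ) : 𝓞 K) * (1 + ((5 : ℤ) : 𝓞 K) * (hζ.toInteger - 1) ^ 2) := by
  have hpD : (hζ.toInteger - 1) ^ 3 ∣ (13 : 𝓞 K) := by
    have := lam_pow_dvd_natCast hζ (k := 3) (by norm_num)
    simpa using this
  have hz : (hζ.toInteger - 1) ^ 3 ∣ (zetaUnit hζ : 𝓞 K) - (1 + (hζ.toInteger - 1)) :=
    cong_refl (zetaUnit_val hζ)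
  have hx2 : (hζ.toInteger - 1) ^ 3 ∣ (xiUnit hζ 2 cop2 : 𝓞 K) - (2 + 1 * (hζ.toInteger - 1)) :=
    cong_refl (xi2_val hζ)
  simp only [h1, Units.val_mul, Units.val_pow_eq_pow_val]
  push_cast
  generalize hζ.toInteger - 1 = π at *
  generalize ((zetaUnit hζ : (𝓞 K)ˣ) : 𝓞 K) = z at *
  generalize ((xiUnit hζ 2 cop2 : (𝓞 K)ˣ) : 𝓞 K) = x2 at *
  have p0 : π ^ 3 ∣ z ^ 6 - (1 + 6 * π + 2 * π ^ 2) :=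
    cong_pow 6 hz (cong_of_eq hpD (20 + 15 * π + 6 * π ^ 2 + 1 * π ^ 3) (1 * π ^ 2) (by ring))
  have p1 : π ^ 3 ∣ x2 ^ 1 - (2 + 1 * π) :=
    cong_pow 1 hx2 (cong_of_eq hpD (0) (0) (by ring))
  have m1 : π ^ 3 ∣ z ^ 6 * x2 ^ 1 - (2 * (1 + 5 * π ^ 2)) :=
    cong_mul p0 p1 (cong_of_eq hpD (2) (1 * π) (by ring))
  exact m1

/-- The unit `h_2` of level `4`. -/
noncomputable def h2 : (𝓞 K)ˣ := zetaUnit hζ ^ 9 * xiUnit hζ 2 cop2 ^ 6 * xiUnit hζ 3 cop3 ^ 1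

lemma h2_cong : (hζ.toInteger - 1) ^ 5 ∣
    (h2 hζ : 𝓞 K) - ((10 : ℤ) : 𝓞 K) * (1 + ((11 : ℤ) : 𝓞 K) * (hζ.toInteger - 1) ^ 4) := by
  have hpD : (hζ.toInteger - 1) ^ 5 ∣ (13 : 𝓞 K) := by
    have := lam_pow_dvd_natCast hζ (k := 5) (by norm_num)
    simpa using this
  have hz : (hζ.toInteger - 1) ^ 5 ∣ (zetaUnit hζ : 𝓞 K) - (1 + (hζ.toInteger - 1)) :=
    cong_refl (zetaUnit_val hζ)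
  have hx2 : (hζ.toInteger - 1) ^ 5 ∣ (xiUnit hζ 2 cop2 : 𝓞 K) - (2 + 1 * (hζ.toInteger - 1)) :=
    cong_refl (xi2_val hζ)
  have hx3 : (hζ.toInteger - 1) ^ 5 ∣ (xiUnit hζ 3 cop3 : 𝓞 K) - (3 + 3 * (hζ.toInteger - 1) + 1 * (hζ.toInteger - 1) ^ 2) :=
    cong_refl (xi3_val hζ)
  simp only [h2, Units.val_mul, Units.val_pow_eq_pow_val]
  push_cast
  generalize hζ.toInteger - 1 = π at *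
  generalize ((zetaUnit hζ : (𝓞 K)ˣ) : 𝓞 K) = z at *
  generalize ((xiUnit hζ 2 cop2 : (𝓞 K)ˣ) : 𝓞 K) = x2 at *
  generalize ((xiUnit hζ 3 cop3 : (𝓞 K)ˣ) : 𝓞 K) = x3 at *
  have p0 : π ^ 5 ∣ z ^ 9 - (1 + 9 * π + 10 * π ^ 2 + 6 * π ^ 3 + 9 * π ^ 4) :=
    cong_pow 9 hz (cong_of_eq hpD (126 + 84 * π + 36 * π ^ 2 + 9 * π ^ 3 + 1 * π ^ 4) (2 * π ^ 2 + 6 * π ^ 3 + 9 * π ^ 4) (by ring))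
  have p1 : π ^ 5 ∣ x2 ^ 6 - (12 + 10 * π + 6 * π ^ 2 + 4 * π ^ 3 + 8 * π ^ 4) :=
    cong_pow 6 hx2 (cong_of_eq hpD (12 + 1 * π) (4 + 14 * π + 18 * π ^ 2 + 12 * π ^ 3 + 4 * π ^ 4) (by ring))
  have m1 : π ^ 5 ∣ z ^ 9 * x2 ^ 6 - (12 + 1 * π + 8 * π ^ 2 + 9 * π ^ 3 + 12 * π ^ 4) :=
    cong_mul p0 p1 (cong_of_eq hpD (238 + 158 * π + 84 * π ^ 2 + 72 * π ^ 3) (9 * π + 16 * π ^ 2 + 17 * π ^ 3 + 20 * π ^ 4) (by ring))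
  have p2 : π ^ 5 ∣ x3 ^ 1 - (3 + 3 * π + 1 * π ^ 2) :=
    cong_pow 1 hx3 (cong_of_eq hpD (0) (0) (by ring))
  have m2 : π ^ 5 ∣ z ^ 9 * x2 ^ 6 * x3 ^ 1 - (10 * (1 + 11 * π ^ 4)) :=
    cong_mul m1 p2 (cong_of_eq hpD (45 + 12 * π) (2 + 3 * π + 3 * π ^ 2 + 4 * π ^ 3 + (-3) * π ^ 4) (by ring))
  exact m2

/-- The unit `h_3` of level `6`. -/
noncomputable def h3 : (𝓞 K)ˣ := zetaUnit hζ ^ 6 * xiUnit hζ 2 cop2 ^ 7 * xiUnit hζ 3 cop3 ^ 2 * xiUnit hζ 4 cop4 ^ 1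

lemma h3_cong : (hζ.toInteger - 1) ^ 7 ∣
    (h3 hζ : 𝓞 K) - ((6 : ℤ) : 𝓞 K) * (1 + ((1 : ℤ) : 𝓞 K) * (hζ.toInteger - 1) ^ 6) := by
  have hpD : (hζ.toInteger - 1) ^ 7 ∣ (13 : 𝓞 K) := by
    have := lam_pow_dvd_natCast hζ (k := 7) (by norm_num)
    simpa using this
  have hz : (hζ.toInteger - 1) ^ 7 ∣ (zetaUnit hζ : 𝓞 K) - (1 + (hζ.toInteger - 1)) :=
    cong_refl (zetaUnit_val hζ)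
  have hx2 : (hζ.toInteger - 1) ^ 7 ∣ (xiUnit hζ 2 cop2 : 𝓞 K) - (2 + 1 * (hζ.toInteger - 1)) :=
    cong_refl (xi2_val hζ)
  have hx3 : (hζ.toInteger - 1) ^ 7 ∣ (xiUnit hζ 3 cop3 : 𝓞 K) - (3 + 3 * (hζ.toInteger - 1) + 1 * (hζ.toInteger - 1) ^ 2) :=
    cong_refl (xi3_val hζ)
  have hx4 : (hζ.toInteger - 1) ^ 7 ∣ (xiUnit hζ 4 cop4 : 𝓞 K) - (4 + 6 * (hζ.toInteger - 1) + 4 * (hζ.toInteger - 1) ^ 2 + 1 * (hζ.toInteger - 1) ^ 3) :=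
    cong_refl (xi4_val hζ)
  simp only [h3, Units.val_mul, Units.val_pow_eq_pow_val]
  push_cast
  generalize hζ.toInteger - 1 = π at *
  generalize ((zetaUnit hζ : (𝓞 K)ˣ) : 𝓞 K) = z at *
  generalize ((xiUnit hζ 2 cop2 : (𝓞 K)ˣ) : 𝓞 K) = x2 at *
  generalize ((xiUnit hζ 3 cop3 : (𝓞 K)ˣ) : 𝓞 K) = x3 at *
  generalize ((xiUnit hζ 4 cop4 : (𝓞 K)ˣ) : 𝓞 K) = x4 at *
  have p0 : π ^ 7 ∣ z ^ 6 - (1 + 6 * π + 2 * π ^ 2 + 7 * π ^ 3 + 2 * π ^ 4 + 6 * π ^ 5 + 1 * π ^ 6) :=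
    cong_pow 6 hz (cong_of_eq hpD (0) (1 * π ^ 2 + 1 * π ^ 3 + 1 * π ^ 4) (by ring))
  have p1 : π ^ 7 ∣ x2 ^ 7 - (11 + 6 * π + 9 * π ^ 2 + 1 * π ^ 3 + 7 * π ^ 4 + 6 * π ^ 5 + 1 * π ^ 6) :=
    cong_pow 7 hx2 (cong_of_eq hpD (1) (9 + 34 * π + 51 * π ^ 2 + 43 * π ^ 3 + 21 * π ^ 4 + 6 * π ^ 5 + 1 * π ^ 6) (by ring))
  have m1 : π ^ 7 ∣ z ^ 6 * x2 ^ 7 - (11 + 7 * π + 2 * π ^ 2 + 1 * π ^ 3 + 4 * π ^ 4 + 9 * π ^ 5 + 6 * π ^ 6) :=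
    cong_mul p0 p1 (cong_of_eq hpD (129 + 73 * π + 62 * π ^ 2 + 45 * π ^ 3 + 12 * π ^ 4 + 1 * π ^ 5) (5 * π + 5 * π ^ 2 + 11 * π ^ 3 + 7 * π ^ 4 + 14 * π ^ 5 + 9 * π ^ 6) (by ring))
  have p2 : π ^ 7 ∣ x3 ^ 2 - (9 + 5 * π + 2 * π ^ 2 + 6 * π ^ 3 + 1 * π ^ 4) :=
    cong_pow 2 hx3 (cong_of_eq hpD (0) (1 * π + 1 * π ^ 2) (by ring))
  have m2 : π ^ 7 ∣ z ^ 6 * x2 ^ 7 * x3 ^ 2 - (8 + 1 * π + 10 * π ^ 2 + 8 * π ^ 3 + 7 * π ^ 4 + 5 * π ^ 5 + 11 * π ^ 6) :=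
    cong_mul m1 p2 (cong_of_eq hpD (73 + 70 * π + 45 * π ^ 2 + 6 * π ^ 3) (7 + 9 * π + 5 * π ^ 2 + 7 * π ^ 3 + 7 * π ^ 4 + 9 * π ^ 5 + 8 * π ^ 6) (by ring))
  have p3 : π ^ 7 ∣ x4 ^ 1 - (4 + 6 * π + 4 * π ^ 2 + 1 * π ^ 3) :=
    cong_pow 1 hx4 (cong_of_eq hpD (0) (0) (by ring))
  have m3 : π ^ 7 ∣ z ^ 6 * x2 ^ 7 * x3 ^ 2 * x4 ^ 1 - (6 * (1 + 1 * π ^ 6)) :=
    cong_mul m2 p3 (cong_of_eq hpD (93 + 49 * π + 11 * π ^ 2) (2 + 4 * π + 6 * π ^ 2 + 8 * π ^ 3 + 9 * π ^ 4 + 8 * π ^ 5 + 8 * π ^ 6) (by ring))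
  exact m3

/-- The unit `h_4` of level `8`. -/
noncomputable def h4 : (𝓞 K)ˣ := zetaUnit hζ ^ 4 * xiUnit hζ 2 cop2 ^ 9 * xiUnit hζ 3 cop3 ^ 5 * xiUnit hζ 4 cop4 ^ 3 * xiUnit hζ 5 cop5 ^ 4

lemma h4_cong : (hζ.toInteger - 1) ^ 9 ∣
    (h4 hζ : 𝓞 K) - ((7 : ℤ) : 𝓞 K) * (1 + ((4 : ℤ) : 𝓞 K) * (hζ.toInteger - 1) ^ 8) := by
  have hpD : (hζ.toInteger - 1) ^ 9 ∣ (13 : 𝓞 K) := by
    have := lam_pow_dvd_natCast hζ (k := 9) (by norm_num)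
    simpa using this
  have hz : (hζ.toInteger - 1) ^ 9 ∣ (zetaUnit hζ : 𝓞 K) - (1 + (hζ.toInteger - 1)) :=
    cong_refl (zetaUnit_val hζ)
  have hx2 : (hζ.toInteger - 1) ^ 9 ∣ (xiUnit hζ 2 cop2 : 𝓞 K) - (2 + 1 * (hζ.toInteger - 1)) :=
    cong_refl (xi2_val hζ)
  have hx3 : (hζ.toInteger - 1) ^ 9 ∣ (xiUnit hζ 3 cop3 : 𝓞 K) - (3 + 3 * (hζ.toInteger - 1) + 1 * (hζ.toInteger - 1) ^ 2) :=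
    cong_refl (xi3_val hζ)
  have hx4 : (hζ.toInteger - 1) ^ 9 ∣ (xiUnit hζ 4 cop4 : 𝓞 K) - (4 + 6 * (hζ.toInteger - 1) + 4 * (hζ.toInteger - 1) ^ 2 + 1 * (hζ.toInteger - 1) ^ 3) :=
    cong_refl (xi4_val hζ)
  have hx5 : (hζ.toInteger - 1) ^ 9 ∣ (xiUnit hζ 5 cop5 : 𝓞 K) - (5 + 10 * (hζ.toInteger - 1) + 10 * (hζ.toInteger - 1) ^ 2 + 5 * (hζ.toInteger - 1) ^ 3 + 1 * (hζ.toInteger - 1) ^ 4) :=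
    cong_refl (xi5_val hζ)
  simp only [h4, Units.val_mul, Units.val_pow_eq_pow_val]
  push_cast
  generalize hζ.toInteger - 1 = π at *
  generalize ((zetaUnit hζ : (𝓞 K)ˣ) : 𝓞 K) = z at *
  generalize ((xiUnit hζ 2 cop2 : (𝓞 K)ˣ) : 𝓞 K) = x2 at *
  generalize ((xiUnit hζ 3 cop3 : (𝓞 K)ˣ) : 𝓞 K) = x3 at *
  generalize ((xiUnit hζ 4 cop4 : (𝓞 K)ˣ) : 𝓞 K) = x4 at *
  generalize ((xiUnit hζ 5 cop5 : (𝓞 K)ˣ) : 𝓞 K) = x5 at *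
  have p0 : π ^ 9 ∣ z ^ 4 - (1 + 4 * π + 6 * π ^ 2 + 4 * π ^ 3 + 1 * π ^ 4) :=
    cong_pow 4 hz (cong_of_eq hpD (0) (0) (by ring))
  have p1 : π ^ 9 ∣ x2 ^ 9 - (5 + 3 * π + 6 * π ^ 2 + 7 * π ^ 3 + 2 * π ^ 4 + 1 * π ^ 5 + 9 * π ^ 6 + 1 * π ^ 7 + 5 * π ^ 8) :=
    cong_pow 9 hx2 (cong_of_eq hpD (1) (39 + 177 * π + 354 * π ^ 2 + 413 * π ^ 3 + 310 * π ^ 4 + 155 * π ^ 5 + 51 * π ^ 6 + 11 * π ^ 7 + 1 * π ^ 8) (by ring))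
  have m1 : π ^ 9 ∣ z ^ 4 * x2 ^ 9 - (5 + 10 * π + 9 * π ^ 2 + 4 * π ^ 3 + 5 * π ^ 4 + 7 * π ^ 6 + 6 * π ^ 7 + 4 * π ^ 8) :=
    cong_mul p0 p1 (cong_of_eq hpD (63 + 43 * π + 21 * π ^ 2 + 5 * π ^ 3) (1 * π + 3 * π ^ 2 + 5 * π ^ 3 + 6 * π ^ 4 + 6 * π ^ 5 + 4 * π ^ 6 + 4 * π ^ 7 + 5 * π ^ 8) (by ring))
  have p2 : π ^ 9 ∣ x3 ^ 5 - (9 + 6 * π + 1 * π ^ 2 + 7 * π ^ 3 + 2 * π ^ 4 + 8 * π ^ 5 + 5 * π ^ 6 + 8 * π ^ 7 + 1 * π ^ 8) :=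
    cong_pow 5 hx3 (cong_of_eq hpD (15 + 1 * π) (18 + 93 * π + 218 * π ^ 2 + 311 * π ^ 3 + 301 * π ^ 4 + 205 * π ^ 5 + 100 * π ^ 6 + 34 * π ^ 7 + 8 * π ^ 8) (by ring))
  have m2 : π ^ 9 ∣ z ^ 4 * x2 ^ 9 * x3 ^ 5 - (6 + 3 * π + 3 * π ^ 2 + 5 * π ^ 3 + 2 * π ^ 4 + 1 * π ^ 5 + 11 * π ^ 6 + 2 * π ^ 7 + 4 * π ^ 8) :=
    cong_mul m1 p2 (cong_of_eq hpD (221 + 126 * π + 140 * π ^ 2 + 96 * π ^ 3 + 118 * π ^ 4 + 75 * π ^ 5 + 38 * π ^ 6 + 4 * π ^ 7) (3 + 9 * π + 11 * π ^ 2 + 10 * π ^ 3 + 12 * π ^ 4 + 12 * π ^ 5 + 16 * π ^ 6 + 23 * π ^ 7 + 19 * π ^ 8) (by ring))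
  have p3 : π ^ 9 ∣ x4 ^ 3 - (12 + 2 * π + 8 * π ^ 3 + 1 * π ^ 4 + 11 * π ^ 5 + 12 * π ^ 6 + 1 * π ^ 7 + 12 * π ^ 8) :=
    cong_pow 3 hx4 (cong_of_eq hpD (1) (4 + 22 * π + 48 * π ^ 2 + 64 * π ^ 3 + 59 * π ^ 4 + 37 * π ^ 5 + 16 * π ^ 6 + 5 * π ^ 7) (by ring))
  have m3 : π ^ 9 ∣ z ^ 4 * x2 ^ 9 * x3 ^ 5 * x4 ^ 3 - (7 + 9 * π + 3 * π ^ 2 + 10 * π ^ 3 + 12 * π ^ 4 + 5 * π ^ 5 + 9 * π ^ 6 + 12 * π ^ 7 + 7 * π ^ 8) :=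
    cong_mul m2 p3 (cong_of_eq hpD (218 + 103 * π + 229 * π ^ 2 + 183 * π ^ 3 + 91 * π ^ 4 + 182 * π ^ 5 + 28 * π ^ 6 + 48 * π ^ 7) (5 + 3 * π + 3 * π ^ 2 + 8 * π ^ 3 + 4 * π ^ 4 + 8 * π ^ 5 + 21 * π ^ 6 + 10 * π ^ 7 + 17 * π ^ 8) (by ring))
  have p4 : π ^ 9 ∣ x5 ^ 4 - (1 + 8 * π + 6 * π ^ 2 + 6 * π ^ 3 + 10 * π ^ 4 + 8 * π ^ 5 + 6 * π ^ 6) :=
    cong_pow 4 hx5 (cong_of_eq hpD (77100 + 38700 * π + 15500 * π ^ 2 + 4845 * π ^ 3 + 1140 * π ^ 4 + 190 * π ^ 5 + 20 * π ^ 6 + 1 * π ^ 7) (48 + 384 * π + 1538 * π ^ 2 + 4038 * π ^ 3 + 7730 * π ^ 4 + 11384 * π ^ 5 + 13288 * π ^ 6 + 12500 * π ^ 7 + 9550 * π ^ 8) (by ring))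
  have m4 : π ^ 9 ∣ z ^ 4 * x2 ^ 9 * x3 ^ 5 * x4 ^ 3 * x5 ^ 4 - (7 * (1 + 4 * π ^ 8)) :=
    cong_mul m3 p4 (cong_of_eq hpD (388 + 316 * π + 264 * π ^ 2 + 220 * π ^ 3 + 128 * π ^ 4 + 42 * π ^ 5) (5 * π + 9 * π ^ 2 + 10 * π ^ 3 + 18 * π ^ 4 + 25 * π ^ 5 + 25 * π ^ 6 + 28 * π ^ 7 + 29 * π ^ 8) (by ring))
  exact m4

/-- The unit `h_5` of level `10`. -/
noncomputable def h5 : (𝓞 K)ˣ := zetaUnit hζ ^ 6 * xiUnit hζ 2 cop2 ^ 9 * xiUnit hζ 3 cop3 ^ 4 * xiUnit hζ 4 cop4 ^ 10 * xiUnit hζ 5 cop5 ^ 1 * xiUnit hζ 6 cop6 ^ 3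

lemma h5_cong : (hζ.toInteger - 1) ^ 11 ∣
    (h5 hζ : 𝓞 K) - ((5 : ℤ) : 𝓞 K) * (1 + ((6 : ℤ) : 𝓞 K) * (hζ.toInteger - 1) ^ 10) := by
  have hpD : (hζ.toInteger - 1) ^ 11 ∣ (13 : 𝓞 K) := by
    have := lam_pow_dvd_natCast hζ (k := 11) (by norm_num)
    simpa using this
  have hz : (hζ.toInteger - 1) ^ 11 ∣ (zetaUnit hζ : 𝓞 K) - (1 + (hζ.toInteger - 1)) :=
    cong_refl (zetaUnit_val hζ)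
  have hx2 : (hζ.toInteger - 1) ^ 11 ∣ (xiUnit hζ 2 cop2 : 𝓞 K) - (2 + 1 * (hζ.toInteger - 1)) :=
    cong_refl (xi2_val hζ)
  have hx3 : (hζ.toInteger - 1) ^ 11 ∣ (xiUnit hζ 3 cop3 : 𝓞 K) - (3 + 3 * (hζ.toInteger - 1) + 1 * (hζ.toInteger - 1) ^ 2) :=
    cong_refl (xi3_val hζ)
  have hx4 : (hζ.toInteger - 1) ^ 11 ∣ (xiUnit hζ 4 cop4 : 𝓞 K) - (4 + 6 * (hζ.toInteger - 1) + 4 * (hζ.toInteger - 1) ^ 2 + 1 * (hζ.toInteger - 1) ^ 3) :=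
    cong_refl (xi4_val hζ)
  have hx5 : (hζ.toInteger - 1) ^ 11 ∣ (xiUnit hζ 5 cop5 : 𝓞 K) - (5 + 10 * (hζ.toInteger - 1) + 10 * (hζ.toInteger - 1) ^ 2 + 5 * (hζ.toInteger - 1) ^ 3 + 1 * (hζ.toInteger - 1) ^ 4) :=
    cong_refl (xi5_val hζ)
  have hx6 : (hζ.toInteger - 1) ^ 11 ∣ (xiUnit hζ 6 cop6 : 𝓞 K) - (6 + 15 * (hζ.toInteger - 1) + 20 * (hζ.toInteger - 1) ^ 2 + 15 * (hζ.toInteger - 1) ^ 3 + 6 * (hζ.toInteger - 1) ^ 4 + 1 * (hζ.toInteger - 1) ^ 5) :=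
    cong_refl (xi6_val hζ)
  simp only [h5, Units.val_mul, Units.val_pow_eq_pow_val]
  push_cast
  generalize hζ.toInteger - 1 = π at *
  generalize ((zetaUnit hζ : (𝓞 K)ˣ) : 𝓞 K) = z at *
  generalize ((xiUnit hζ 2 cop2 : (𝓞 K)ˣ) : 𝓞 K) = x2 at *
  generalize ((xiUnit hζ 3 cop3 : (𝓞 K)ˣ) : 𝓞 K) = x3 at *
  generalize ((xiUnit hζ 4 cop4 : (𝓞 K)ˣ) : 𝓞 K) = x4 at *
  generalize ((xiUnit hζ 5 cop5 : (𝓞 K)ˣ) : 𝓞 K) = x5 at *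
  generalize ((xiUnit hζ 6 cop6 : (𝓞 K)ˣ) : 𝓞 K) = x6 at *
  have p0 : π ^ 11 ∣ z ^ 6 - (1 + 6 * π + 2 * π ^ 2 + 7 * π ^ 3 + 2 * π ^ 4 + 6 * π ^ 5 + 1 * π ^ 6) :=
    cong_pow 6 hz (cong_of_eq hpD (0) (1 * π ^ 2 + 1 * π ^ 3 + 1 * π ^ 4) (by ring))
  have p1 : π ^ 11 ∣ x2 ^ 9 - (5 + 3 * π + 6 * π ^ 2 + 7 * π ^ 3 + 2 * π ^ 4 + 1 * π ^ 5 + 9 * π ^ 6 + 1 * π ^ 7 + 5 * π ^ 8 + 1 * π ^ 9) :=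
    cong_pow 9 hx2 (cong_of_eq hpD (0) (39 + 177 * π + 354 * π ^ 2 + 413 * π ^ 3 + 310 * π ^ 4 + 155 * π ^ 5 + 51 * π ^ 6 + 11 * π ^ 7 + 1 * π ^ 8) (by ring))
  have m1 : π ^ 11 ∣ z ^ 6 * x2 ^ 9 - (5 + 7 * π + 8 * π ^ 2 + 6 * π ^ 3 + 9 * π ^ 4 + 1 * π ^ 5 + 12 * π ^ 6 + 7 * π ^ 7 + 10 * π ^ 8 + 10 * π ^ 10) :=
    cong_mul p0 p1 (cong_of_eq hpD (94 + 32 * π + 33 * π ^ 2 + 11 * π ^ 3 + 1 * π ^ 4) (2 * π + 2 * π ^ 2 + 6 * π ^ 3 + 6 * π ^ 4 + 8 * π ^ 5 + 7 * π ^ 6 + 9 * π ^ 7 + 6 * π ^ 8 + 9 * π ^ 9 + 3 * π ^ 10) (by ring))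
  have p2 : π ^ 11 ∣ x3 ^ 4 - (3 + 12 * π + 9 * π ^ 2 + 11 * π ^ 3 + 4 * π ^ 4 + 8 * π ^ 5 + 1 * π ^ 6 + 12 * π ^ 7 + 1 * π ^ 8) :=
    cong_pow 4 hx3 (cong_of_eq hpD (0) (6 + 24 * π + 45 * π ^ 2 + 49 * π ^ 3 + 35 * π ^ 4 + 16 * π ^ 5 + 5 * π ^ 6) (by ring))
  have m2 : π ^ 11 ∣ z ^ 6 * x2 ^ 9 * x3 ^ 4 - (2 + 3 * π + 10 * π ^ 2 + 11 * π ^ 3 + 8 * π ^ 4 + 9 * π ^ 5 + 2 * π ^ 6 + 12 * π ^ 7 + 11 * π ^ 8 + 6 * π ^ 9 + 4 * π ^ 10) :=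
    cong_mul m1 p2 (cong_of_eq hpD (469 + 219 * π + 342 * π ^ 2 + 146 * π ^ 3 + 207 * π ^ 4 + 20 * π ^ 5 + 120 * π ^ 6 + 10 * π ^ 7) (1 + 6 * π + 11 * π ^ 2 + 17 * π ^ 3 + 20 * π ^ 4 + 24 * π ^ 5 + 22 * π ^ 6 + 32 * π ^ 7 + 31 * π ^ 8 + 38 * π ^ 9 + 26 * π ^ 10) (by ring))
  have p3 : π ^ 11 ∣ x4 ^ 10 - (9 + 5 * π + 10 * π ^ 2 + 1 * π ^ 3 + 12 * π ^ 4 + 12 * π ^ 6 + 1 * π ^ 7 + 11 * π ^ 8 + 3 * π ^ 9 + 10 * π ^ 10) :=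
    cong_pow 10 hx4 (cong_of_eq hpD (81267824640 + 78275189760 * π + 66874890240 * π ^ 2 + 50806191360 * π ^ 3 + 34368362496 * π ^ 4 + 20705794560 * π ^ 5 + 11100848640 * π ^ 6 + 5285868160 * π ^ 7 + 2228547840 * π ^ 8 + 828204928 * π ^ 9 + 269670400 * π ^ 10 + 76315680 * π ^ 11 + 18572160 * π ^ 12 + 3832080 * π ^ 13 + 657648 * π ^ 14 + 91380 * π ^ 15 + 9880 * π ^ 16 + 780 * π ^ 17 + 40 * π ^ 18 + 1 * π ^ 19) (80659 + 1209895 * π + 8973390 * π ^ 2 + 43757883 * π ^ 3 + 157437636 * π ^ 4 + 444727296 * π ^ 5 + 1024970436 * π ^ 6 + 1977725243 * π ^ 7 + 3253611913 * π ^ 8 + 4624565169 * π ^ 9 + 5735211086 * π ^ 10) (by ring))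
  have m3 : π ^ 11 ∣ z ^ 6 * x2 ^ 9 * x3 ^ 4 * x4 ^ 10 - (5 + 11 * π + 8 * π ^ 2 + 12 * π ^ 3 + 7 * π ^ 4 + 4 * π ^ 5 + 12 * π ^ 6 + 9 * π ^ 7 + 3 * π ^ 10) :=
    cong_mul m2 p3 (cong_of_eq hpD (532 + 432 * π + 455 * π ^ 2 + 321 * π ^ 3 + 311 * π ^ 4 + 231 * π ^ 5 + 223 * π ^ 6 + 172 * π ^ 7 + 72 * π ^ 8 + 40 * π ^ 9) (1 + 2 * π + 9 * π ^ 2 + 13 * π ^ 3 + 19 * π ^ 4 + 21 * π ^ 5 + 22 * π ^ 6 + 29 * π ^ 7 + 33 * π ^ 8 + 40 * π ^ 9 + 35 * π ^ 10) (by ring))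
  have p4 : π ^ 11 ∣ x5 ^ 1 - (5 + 10 * π + 10 * π ^ 2 + 5 * π ^ 3 + 1 * π ^ 4) :=
    cong_pow 1 hx5 (cong_of_eq hpD (0) (0) (by ring))
  have m4 : π ^ 11 ∣ z ^ 6 * x2 ^ 9 * x3 ^ 4 * x4 ^ 10 * x5 ^ 1 - (12 + 1 * π + 5 * π ^ 2 + 2 * π ^ 3 + 9 * π ^ 4 + 1 * π ^ 5 + 4 * π ^ 6 + 5 * π ^ 7 + 3 * π ^ 8 + 11 * π ^ 9 + 7 * π ^ 10) :=
    cong_mul m3 p4 (cong_of_eq hpD (39 + 30 * π + 15 * π ^ 2 + 3 * π ^ 3) (1 + 8 * π + 15 * π ^ 2 + 21 * π ^ 3 + 22 * π ^ 4 + 20 * π ^ 5 + 18 * π ^ 6 + 19 * π ^ 7 + 18 * π ^ 8 + 11 * π ^ 9 + 5 * π ^ 10) (by ring))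
  have p5 : π ^ 11 ∣ x6 ^ 3 - (8 + 8 * π + 9 * π ^ 2 + 3 * π ^ 4 + 10 * π ^ 5 + 3 * π ^ 6 + 10 * π ^ 7 + 3 * π ^ 8 + 10 * π ^ 9 + 1 * π ^ 10) :=
    cong_pow 3 hx6 (cong_of_eq hpD (3060 + 816 * π + 153 * π ^ 2 + 18 * π ^ 3 + 1 * π ^ 4) (16 + 124 * π + 477 * π ^ 2 + 1215 * π ^ 3 + 2265 * π ^ 4 + 3251 * π ^ 5 + 3689 * π ^ 6 + 3350 * π ^ 7 + 2445 * π ^ 8 + 1427 * π ^ 9 + 659 * π ^ 10) (by ring))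
  have m5 : π ^ 11 ∣ z ^ 6 * x2 ^ 9 * x3 ^ 4 * x4 ^ 10 * x5 ^ 1 * x6 ^ 3 - (5 * (1 + 6 * π ^ 10)) :=
    cong_mul m4 p5 (cong_of_eq hpD (360 + 196 * π + 213 * π ^ 2 + 221 * π ^ 3 + 189 * π ^ 4 + 194 * π ^ 5 + 138 * π ^ 6 + 134 * π ^ 7 + 81 * π ^ 8 + 7 * π ^ 9) (7 + 8 * π + 12 * π ^ 2 + 5 * π ^ 3 + 13 * π ^ 4 + 17 * π ^ 5 + 14 * π ^ 6 + 20 * π ^ 7 + 16 * π ^ 8 + 33 * π ^ 9 + 19 * π ^ 10) (by ring))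
  exact m5

/-- **Kummer's lemma for `p = 13`.** -/
theorem kummerLemma (K : Type*) [Field K] [NumberField K] [IsCyclotomicExtension {13} ℚ K] :
    KummerLemmaHolds 13 K := by
  have hζ := IsCyclotomicExtension.zeta_spec 13 ℚ K
  refine kummerLemma_of_triangular' (p := 13) (by norm_num) hζ (r := 6) (by norm_num)
    ![h0 hζ, h1 hζ, h2 hζ, h3 hζ, h4 hζ, h5 hζ] ![1, 2, 10, 6, 7, 5] ![1, 5, 11, 1, 4, 6] ![1, 2, 4, 6, 8, 10] ?_ ?_ ?_ ?_ ?_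
  · intro i j hij
    fin_cases i <;> fin_cases j <;> simp at hij ⊢
  · intro i
    fin_cases i <;> simp
  · intro i
    fin_cases i <;> simp
  · intro i
    fin_cases i <;> norm_num
  · intro i
    fin_cases i
    · exact h0_cong hζ
    · exact h1_cong hζ
    · exact h2_cong hζ
    · exact h3_cong hζ
    · exact h4_cong hζ
    · exact h5_cong hζ

end Fermat.Agent.Lib.Kummer.UnitCert.P13
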