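import Fermat.Agent.Lib.Kummer.UnitCert.Basic
import Mathlib.Tactic.NormNum.Prime

/-!
# Kummer's lemma for `p = 7` from an explicit triangular system of cyclotomic units

This file is generated (see the certificate calculus in `UnitCert/Basic.lean`): every step is a
polynomial identity in `lam = zeta - 1` checked by `ring`.
-/

set_option autoImplicit false
set_option linter.unusedSectionVars false
set_option linter.unusedVariables false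
set_option linter.unusedSimpArgs false
set_option linter.style.longLine false

namespace Fermat.Agent.Lib.Kummer.UnitCert.P7

open NumberField

theorem fact_prime : Fact (Nat.Prime 7) := ⟨by norm_num⟩

attribute [local instance] fact_prime

variable {K : Type*} [Field K] [NumberField K] [IsCyclotomicExtension {7} ℚ K] {ζ : K}
  (hζ : IsPrimitiveRoot ζ 7)

theorem cop2 : Nat.Coprime 2 7 := by norm_num

lemma xi2_val : (xiUnit hζ 2 cop2 : 𝓞 K) = 2 + 1 * (hζ.toInteger - 1) := by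
  rw [xiUnit_val]
  simp only [Finset.sum_range_succ, Finset.sum_range_zero]
  ring

theorem cop3 : Nat.Coprime 3 7 := by norm_num

lemma xi3_val : (xiUnit hζ 3 cop3 : 𝓞 K) = 3 + 3 * (hζ.toInteger - 1) + 1 * (hζ.toInteger - 1) ^ 2 := by
  rw [xiUnit_val]
  simp only [Finset.sum_range_succ, Finset.sum_range_zero]
  ring

/-- The unit `h_0` of level `1`. -/
noncomputable def h0 : (𝓞 K)ˣ := zetaUnit hζ ^ 1

lemma h0_cong : (hζ.toInteger - 1) ^ 2 ∣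
    (h0 hζ : 𝓞 K) - ((1 : ℤ) : 𝓞 K) * (1 + ((1 : ℤ) : 𝓞 K) * (hζ.toInteger - 1) ^ 1) := by
  have hpD : (hζ.toInteger - 1) ^ 2 ∣ (7 : 𝓞 K) := by
    have := lam_pow_dvd_natCast hζ (k := 2) (by norm_num)
    simpa using this
  have hz : (hζ.toInteger - 1) ^ 2 ∣ (zetaUnit hζ : 𝓞 K) - (1 + (hζ.toInteger - 1)) :=
    cong_refl (zetaUnit_val hζ)
  simp only [h0, Units.val_mul, Units.val_pow_eq_pow_val]
  push_cast
  generalize hζ.toInteger - 1 = π at *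
  generalize ((zetaUnit hζ : (𝓞 K)ˣ) : 𝓞 K) = z at *
  have p0 : π ^ 2 ∣ z ^ 1 - (1 * (1 + 1 * π ^ 1)) :=
    cong_pow 1 hz (cong_of_eq hpD (0) (0) (by ring))
  exact p0

/-- The unit `h_1` of level `2`. -/
noncomputable def h1 : (𝓞 K)ˣ := zetaUnit hζ ^ 3 * xiUnit hζ 2 cop2 ^ 1

lemma h1_cong : (hζ.toInteger - 1) ^ 3 ∣
    (h1 hζ : 𝓞 K) - ((2 : ℤ) : 𝓞 K) * (1 + ((1 : ℤ) : 𝓞 K) * (hζ.toInteger - 1) ^ 2) := by
  have hpD : (hζ.toInteger - 1) ^ 3 ∣ (7 : 𝓞 K) := by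
    have := lam_pow_dvd_natCast hζ (k := 3) (by norm_num)
    simpa using this
  have hz : (hζ.toInteger - 1) ^ 3 ∣ (zetaUnit hζ : 𝓞 K) - (1 + (hζ.toInteger - 1)) :=
    cong_refl (zetaUnit_val hζ)
  have hx2 : (hζ.toInteger - 1) ^ 3 ∣ (xiUnit hζ 2 cop2 : 𝓞 K) - (2 + 1 * (hζ.toInteger - 1)) :=
    cong_refl (xi2_val hζ)
  simp only [h1, Units.val_mul, Units.val_pow_eq_pow_val]
  push_cast
  generalize hζ.toInteger - 1 = π at *
  generalize ((zetaUnit hζ : (𝓞 K)ˣ) : 𝓞 K) = z at *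
  generalize ((xiUnit hζ 2 cop2 : (𝓞 K)ˣ) : 𝓞 K) = x2 at *
  have p0 : π ^ 3 ∣ z ^ 3 - (1 + 3 * π + 3 * π ^ 2) :=
    cong_pow 3 hz (cong_of_eq hpD (1) (0) (by ring))
  have p1 : π ^ 3 ∣ x2 ^ 1 - (2 + 1 * π) :=
    cong_pow 1 hx2 (cong_of_eq hpD (0) (0) (by ring))
  have m1 : π ^ 3 ∣ z ^ 3 * x2 ^ 1 - (2 * (1 + 1 * π ^ 2)) :=
    cong_mul p0 p1 (cong_of_eq hpD (3) (1 * π + 1 * π ^ 2) (by ring))
  exact m1

/-- The unit `h_2` of level `4`. -/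
noncomputable def h2 : (𝓞 K)ˣ := zetaUnit hζ ^ 5 * xiUnit hζ 2 cop2 ^ 2 * xiUnit hζ 3 cop3 ^ 1

lemma h2_cong : (hζ.toInteger - 1) ^ 5 ∣
    (h2 hζ : 𝓞 K) - ((5 : ℤ) : 𝓞 K) * (1 + ((3 : ℤ) : 𝓞 K) * (hζ.toInteger - 1) ^ 4) := by
  have hpD : (hζ.toInteger - 1) ^ 5 ∣ (7 : 𝓞 K) := by
    have := lam_pow_dvd_natCast hζ (k := 5) (by norm_num)
    simpa using this
  have hz : (hζ.toInteger - 1) ^ 5 ∣ (zetaUnit hζ : 𝓞 K) - (1 + (hζ.toInteger - 1)) :=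
    cong_refl (zetaUnit_val hζ)
  have hx2 : (hζ.toInteger - 1) ^ 5 ∣ (xiUnit hζ 2 cop2 : 𝓞 K) - (2 + 1 * (hζ.toInteger - 1)) :=
    cong_refl (xi2_val hζ)
  have hx3 : (hζ.toInteger - 1) ^ 5 ∣ (xiUnit hζ 3 cop3 : 𝓞 K) - (3 + 3 * (hζ.toInteger - 1) + 1 * (hζ.toInteger - 1) ^ 2) :=
    cong_refl (xi3_val hζ)
  simp only [h2, Units.val_mul, Units.val_pow_eq_pow_val]
  push_cast
  generalize hζ.toInteger - 1 = π at *
  generalize ((zetaUnit hζ : (𝓞 K)ˣ) : 𝓞 K) = z at *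
  generalize ((xiUnit hζ 2 cop2 : (𝓞 K)ˣ) : 𝓞 K) = x2 at *
  generalize ((xiUnit hζ 3 cop3 : (𝓞 K)ˣ) : 𝓞 K) = x3 at *
  have p0 : π ^ 5 ∣ z ^ 5 - (1 + 5 * π + 3 * π ^ 2 + 3 * π ^ 3 + 5 * π ^ 4) :=
    cong_pow 5 hz (cong_of_eq hpD (1) (1 * π ^ 2 + 1 * π ^ 3) (by ring))
  have p1 : π ^ 5 ∣ x2 ^ 2 - (4 + 4 * π + 1 * π ^ 2) :=
    cong_pow 2 hx2 (cong_of_eq hpD (0) (0) (by ring))
  have m1 : π ^ 5 ∣ z ^ 5 * x2 ^ 2 - (4 + 3 * π + 5 * π ^ 2 + 1 * π ^ 3) :=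
    cong_mul p0 p1 (cong_of_eq hpD (23 + 5 * π) (3 * π + 4 * π ^ 2 + 4 * π ^ 3 + 5 * π ^ 4) (by ring))
  have p2 : π ^ 5 ∣ x3 ^ 1 - (3 + 3 * π + 1 * π ^ 2) :=
    cong_pow 1 hx3 (cong_of_eq hpD (0) (0) (by ring))
  have m2 : π ^ 5 ∣ z ^ 5 * x2 ^ 2 * x3 ^ 1 - (5 * (1 + 3 * π ^ 4)) :=
    cong_mul m1 p2 (cong_of_eq hpD (1) (1 + 3 * π + 4 * π ^ 2 + 3 * π ^ 3 + (-1) * π ^ 4) (by ring))
  exact m2

/-- **Kummer's lemma for `p = 7`.** -/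
theorem kummerLemma (K : Type*) [Field K] [NumberField K] [IsCyclotomicExtension {7} ℚ K] :
    KummerLemmaHolds 7 K := by
  have hζ := IsCyclotomicExtension.zeta_spec 7 ℚ K
  refine kummerLemma_of_triangular' (p := 7) (by norm_num) hζ (r := 3) (by norm_num)
    ![h0 hζ, h1 hζ, h2 hζ] ![1, 2, 5] ![1, 1, 3] ![1, 2, 4] ?_ ?_ ?_ ?_ ?_
  · intro i j hij
    fin_cases i <;> fin_cases j <;> simp at hij ⊢
  · intro i
    fin_cases i <;> simp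
  · intro i
    fin_cases i <;> simp
  · intro i
    fin_cases i <;> norm_num
  · intro i
    fin_cases i
    · exact h0_cong hζ
    · exact h1_cong hζ
    · exact h2_cong hζ

end Fermat.Agent.Lib.Kummer.UnitCert.P7
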